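/-
S55 (Poitou–Tate), package C8, assembly (A1) — helper51 (task 458, spec helper29 #2587).

`pGroupHasse_of_leaves` : the Hasse principle for the `p`-group layers `K/k` of number fields
with `μ_p ⊆ k` (`H29.PGroupHasseStatement p`), from the Hasse principle for the Kummer layers of
degree `p` (`H29.PrimeHasseStatement p`) and the tower leaves of `C8Hasse.lean`.

Proof: induction on `n`, `[K : k] = p ^ n`.
* `n = 0` : `Gal(K/k)` is trivial, so `H²(Gal(K/k), Kˣ) = 0`.
* `n + 1` : `Gal(K/k)` is a nontrivial `p`-group, so it has a central element `z` of order `p`;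
  `E :=` the fixed field of `⟨z⟩` is Galois over `k` of degree `p ^ n`, and `K/E` has degree `p`.
  The tower `H88.towerOf k E K` and `H29.Tower.hasse_of` conclude.
-/
import Fermat.Agent.S55.H29.C8Hasse

set_option autoImplicit false
set_option linter.style.haveILetI false

open CategoryTheory groupCohomology Rep

noncomputable section

namespace Fermat.Agent.S55.H51

open Fermat.Agent.S55.H88 Fermat.Agent.S55.H66

/-- The Hasse principle for a layer with trivial Galois group (`H² = 0`). -/
theorem layerOf_hasse_of_subsingleton (k K : Type) [Field k] [Field K] [Algebra k K]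
    [Normal k K] [Subsingleton (K ≃ₐ[k] K)] : (layerOf k K).Hasse := by
  intro α _
  have h : Limits.IsZero (groupCohomology (Rep.ofAlgebraAutOnUnits k K) (1 + 1)) :=
    isZero_groupCohomology_succ_of_subsingleton (Rep.ofAlgebraAutOnUnits k K) 1
  have hs : Subsingleton (groupCohomology (Rep.ofAlgebraAutOnUnits k K) 2) :=
    ModuleCat.subsingleton_of_isZero h
  exact @Subsingleton.elim _ hs α 0

/-- A finite group of order `p ^ (n + 1)` has a central element of order `p`. -/
theorem exists_central_orderOf_eq_prime {G : Type*} [Group G] [Finite G] (p : ℕ)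
    [hp : Fact p.Prime] {n : ℕ} (hG : Nat.card G = p ^ (n + 1)) :
    ∃ z : G, z ∈ Subgroup.center G ∧ orderOf z = p := by
  have hPG : IsPGroup p G := IsPGroup.of_card hG
  haveI : Nontrivial G := by
    rw [← Finite.one_lt_card_iff_nontrivial, hG]
    exact Nat.one_lt_pow (Nat.succ_ne_zero n) hp.out.one_lt
  haveI : Nontrivial (Subgroup.center G) := hPG.center_nontrivial
  obtain ⟨m, hm⟩ := IsPGroup.iff_card.mp (hPG.to_subgroup (Subgroup.center G))
  have hm0 : m ≠ 0 := by
    rintro rfl
    rw [pow_zero] at hm
    have := Finite.one_lt_card_iff_nontrivial.mpr (inferInstance : Nontrivial (Subgroup.center G))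
    omega
  have hdvd : p ∣ Nat.card (Subgroup.center G) := hm ▸ dvd_pow_self p hm0
  obtain ⟨z, hz⟩ := exists_prime_orderOf_dvd_card' p hdvd
  exact ⟨z, z.2, by rwa [Subgroup.orderOf_coe]⟩

/-- **Assembly (A1).**  The Hasse principle for `p`-group layers over fields containing `μ_p`,
from the prime (Kummer) layers and the tower leaves. -/
theorem pGroupHasse_of_leaves (p : ℕ) (hPrime : H29.PrimeHasseStatement p)
    (hSub : H29.SubCompatStatement) (hQuot : H29.QuotInfCompatStatement)
    (hIR : H29.TowerInfResStatement) (hSubInj : H29.SubH2InjStatement)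
    (hQuotInj : H29.QuotH2InjStatement) : H29.PGroupHasseStatement p := by
  intro hp hp2
  haveI : Fact p.Prime := ⟨hp⟩
  suffices key : ∀ n : ℕ, ∀ (k K : Type) [Field k] [NumberField k] [Field K] [NumberField K]
      [Algebra k K] [IsGalois k K], (∃ ζ : k, IsPrimitiveRoot ζ p) →
      Module.finrank k K = p ^ n → (layerOf k K).Hasse by
    intro k K _ _ _ _ _ _ hζ hn
    obtain ⟨n, hn⟩ := hn
    exact key n k K hζ hn
  intro n
  induction n with
  | zero =>
    intro k K _ _ _ _ _ _ _ hn
    haveI : Subsingleton (K ≃ₐ[k] K) := by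
      rw [← Finite.card_le_one_iff_subsingleton, IsGalois.card_aut_eq_finrank, hn, pow_zero]
    exact layerOf_hasse_of_subsingleton k K
  | succ n ih =>
    intro k K _ _ _ _ _ _ hζ hn
    obtain ⟨ζ, hζ⟩ := hζ
    have hcard : Nat.card (K ≃ₐ[k] K) = p ^ (n + 1) := by
      rw [IsGalois.card_aut_eq_finrank, hn]
    obtain ⟨z, hzc, hzo⟩ := exists_central_orderOf_eq_prime p hcard
    have hle : Subgroup.zpowers z ≤ Subgroup.center (K ≃ₐ[k] K) :=
      (Subgroup.zpowers_le).mpr hzc
    haveI hnormal : (Subgroup.zpowers z).Normal :=
      ⟨fun h hh g => by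
        have hc := Subgroup.mem_center_iff.mp (hle hh) g
        rw [hc, mul_inv_cancel_right]
        exact hh⟩
    have hEK : Module.finrank (IntermediateField.fixedField (Subgroup.zpowers z)) K = p := by
      rw [IntermediateField.finrank_fixedField_eq_card, Nat.card_zpowers, hzo]
    have hkE : Module.finrank k (IntermediateField.fixedField (Subgroup.zpowers z)) = p ^ n := by
      have h := Module.finrank_mul_finrank k (IntermediateField.fixedField (Subgroup.zpowers z)) K
      rw [hEK, hn, pow_succ] at h
      exact Nat.eq_of_mul_eq_mul_right hp.pos h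
    have hζE : IsPrimitiveRoot
        (algebraMap k (IntermediateField.fixedField (Subgroup.zpowers z)) ζ) p :=
      hζ.map_of_injective (algebraMap k _).injective
    have h1 : (layerOf (IntermediateField.fixedField (Subgroup.zpowers z)) K).Hasse :=
      hPrime hp hp2 _ K ⟨_, hζE⟩ hEK
    have h2 : (layerOf k (IntermediateField.fixedField (Subgroup.zpowers z))).Hasse :=
      ih k _ ⟨ζ, hζ⟩ hkE
    refine H29.Tower.hasse_of
      (towerOf k (IntermediateField.fixedField (Subgroup.zpowers z)) K)
      (hSub k _ K) (hQuot k _ K) (hIR k _ K) ?_ ?_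
    · intro β hβ
      refine hSubInj k (IntermediateField.fixedField (Subgroup.zpowers z)) K ?_
      have h0 : subH2 k (IntermediateField.fixedField (Subgroup.zpowers z)) K β = 0 :=
        h1 _ fun w => hβ w
      exact h0.trans (map_zero (subH2 k (IntermediateField.fixedField (Subgroup.zpowers z)) K)).symm
    · intro γ hγ
      refine hQuotInj k (IntermediateField.fixedField (Subgroup.zpowers z)) K ?_
      have h0 : quotH2 k (IntermediateField.fixedField (Subgroup.zpowers z)) K γ = 0 :=
        h2 _ fun v => hγ v
      exact h0.trans (map_zero (quotH2 k (IntermediateField.fixedField (Subgroup.zpowers z)) K)).symm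

end Fermat.Agent.S55.H51
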