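/-
S55 / Program C, package C4 (helper26's local invariant), leaf (ZETA)  — helper51, task 431.

`zetaStatement p q : Fermat.Agent.S55.H26.ZetaStatement p q` VERBATIM: for a primitive `p`-th root
of unity `ζ ∈ Ω = PadicAlgCl q` and an intermediate field `E` of `Ω / ℚ_q`,

    `ζ ∈ E  ↔  χ_loc is trivial on Gal(Ω / E)`.

Proof: `ζ` is the image of a primitive root `z` of `ℚ̄` under the Prelude's `padicEmbedding`;
`s (ι z) = ι (σ z)` for `σ = localGaloisToGlobal q s` (Prelude `padicEmbedding_localGaloisToGlobal`)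
and `σ z = z ^ χ(σ)` (Mathlib `modularCyclotomicCharacter.spec`), so `s ζ = ζ ^ χ_loc(s)`;
`E = Ω^{Gal(Ω/E)}` (Mathlib `InfiniteGalois.fixedField_fixingSubgroup`).
-/
import Fermat.Agent.S55.H26.LocalInvAssembly

set_option autoImplicit false
set_option linter.style.haveILetI false

open ExtCitation

namespace Fermat.Agent.S55.H51

variable (p : ℕ) [Fact p.Prime]

/-- `σ z = z ^ χ(σ)` on the `p`-th roots of unity of `ℚ̄`. -/
theorem apply_eq_pow_cycloChar (σ : AlgebraicClosure ℚ ≃ₐ[ℚ] AlgebraicClosure ℚ)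
    {z : AlgebraicClosure ℚ} (hz : z ^ p = 1) :
    σ z = z ^ ((cycloChar p σ : (ZMod p)ˣ) : ZMod p).val := by
  haveI : NeZero p := ⟨(Fact.out : p.Prime).ne_zero⟩
  have hz0 : z ≠ 0 := by
    rintro rfl
    rw [zero_pow (NeZero.ne p)] at hz
    exact zero_ne_one hz
  have ht : Units.mk0 z hz0 ∈ rootsOfUnity p (AlgebraicClosure ℚ) := by
    rw [mem_rootsOfUnity]
    ext
    simpa using hz
  have h := modularCyclotomicCharacter.spec (AlgebraicClosure ℚ) (card_rootsOfUnity_eq_self p)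
    (σ : AlgebraicClosure ℚ ≃+* AlgebraicClosure ℚ) ht
  simpa [cycloChar] using h

/-- `ℚ̄` contains a primitive `p`-th root of unity. -/
theorem exists_isPrimitiveRoot_qbar : ∃ z : AlgebraicClosure ℚ, IsPrimitiveRoot z p := by
  haveI : NeZero (p : AlgebraicClosure ℚ) :=
    ⟨by exact_mod_cast (Fact.out : p.Prime).ne_zero⟩
  exact HasEnoughRootsOfUnity.exists_primitiveRoot (AlgebraicClosure ℚ) p

variable (q : ℕ) [Fact q.Prime]

open Fermat.Agent.S55.H26 in
/-- `s ζ = ζ ^ χ_loc(s)` for a `p`-th root of unity of `Ω` which comes from `ℚ̄`. -/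
theorem apply_eq_pow_chiLoc (s : GalQ q) {z : AlgebraicClosure ℚ} (hz : z ^ p = 1) :
    s (padicEmbedding q z)
      = padicEmbedding q z ^ ((chiLoc p q s : (ZMod p)ˣ) : ZMod p).val := by
  rw [← padicEmbedding_localGaloisToGlobal, apply_eq_pow_cycloChar p _ hz, map_pow]
  rfl

open Fermat.Agent.S55.H26 in
/-- **Leaf (ZETA)** of C4, verbatim. -/
theorem zetaStatement : ZetaStatement p q := by
  intro ζ hζ E
  have hp1 : 1 < p := (Fact.out : p.Prime).one_lt
  haveI : Fact (1 < p) := ⟨hp1⟩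
  haveI : NeZero p := ⟨(Fact.out : p.Prime).ne_zero⟩
  -- `ζ` comes from `ℚ̄`
  obtain ⟨z₀, hz₀⟩ := exists_isPrimitiveRoot_qbar p
  have hι : IsPrimitiveRoot (padicEmbedding q z₀) p :=
    hz₀.map_of_injective (padicEmbedding q).toRingHom.injective
  obtain ⟨k, -, hk⟩ := hι.eq_pow_of_pow_eq_one hζ.pow_eq_one
  have hzp : (z₀ ^ k) ^ p = 1 := by
    rw [← pow_mul, mul_comm, pow_mul, hz₀.pow_eq_one, one_pow]
  have hz : padicEmbedding q (z₀ ^ k) = ζ := by rw [map_pow, hk]
  have key : ∀ s : GalQ q, s ζ = ζ ^ ((chiLoc p q s : (ZMod p)ˣ) : ZMod p).val := by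
    intro s
    rw [← hz]
    exact apply_eq_pow_chiLoc p q s hzp
  haveI : IsGalois ℚ_[q] (PadicAlgCl q) := IsAlgClosure.isGalois ℚ_[q] (PadicAlgCl q)
  constructor
  · intro hζE s hs
    have h1 : s ζ = ζ := hs ⟨ζ, hζE⟩
    rw [key s] at h1
    have h2 : ((chiLoc p q s : (ZMod p)ˣ) : ZMod p).val = 1 :=
      hζ.pow_inj (ZMod.val_lt _) hp1 (by rw [h1, pow_one])
    apply Units.ext
    rw [Units.val_one]
    apply ZMod.val_injective p
    rw [h2, ZMod.val_one]
  · intro h
    have hmem : ζ ∈ IntermediateField.fixedField E.fixingSubgroup := by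
      rw [IntermediateField.mem_fixedField_iff]
      intro s hs
      rw [key s, h s hs, Units.val_one, ZMod.val_one, pow_one]
    rwa [InfiniteGalois.fixedField_fixingSubgroup] at hmem

end Fermat.Agent.S55.H51
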