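/-
S55 (Poitou–Tate), package C8, model-side lemmas for the cyclotomic layers (leaves CYCLO-EXISTS /
CYCLO-REC of `H29/C8Rec.lean`) — helper51.

* `exists_aut_pow_resCard` (local) : for an embedded local field `F ⊆ Ω = PadicAlgCl q` and
  `q ∤ m` there is `g ∈ Aut(Ω/F)` raising every `m`-th root of unity to the power `#k_F`.
* `exists_mem_decompGroup_pow_resCard` (global) : for `K/k` normal and an embedding
  `τ : K → Ω` there is `s` in the decomposition group `H88.decompGroup q k τ` with
  `s ξ = ξ ^ #k_v` for every `m`-th root of unity `ξ ∈ K`.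
* `restrictNormalHom_mem_decompGroup` : if `Gal(E/k)` is commutative, the restriction to `E`
  of an element of the decomposition group of `τ` lies in the decomposition group of ANY
  embedding of `E` above the same embedding of `k` (e.g. the independently chosen `v.ext E`).
* `locDegAt_eq_card_decompGroup`, `dvd_locDegAt_of_mem_decompGroup` : the local degree
  `H29.locDegAt k E v` is the order of the decomposition group, so it is divisible by the
  order of each of its elements.
* `exists_frob_finPlace` : the combination for a finite place `v` of `k` with `v.1 ∤ m`.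
-/
import Fermat.Agent.S55.H45.UnramLeaf
import Fermat.Agent.S55.H28.Unram
import Fermat.Agent.S55.H20.Decomp
import Fermat.Agent.S55.H29.C8Ex

set_option autoImplicit false
set_option linter.style.haveILetI false
set_option linter.unusedSectionVars false

open scoped IntermediateField

noncomputable section

namespace Fermat.Agent.S55.H51

open Fermat.Agent.S55.H88 Fermat.Agent.S55.H66

section Local

variable (q : ℕ) [Fact q.Prime]

/-- **Local Frobenius on roots of unity.**  For an embedded local field `F` and `q ∤ m` there is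
an automorphism of `Ω` over `F` raising every `m`-th root of unity to the power `#k_F`. -/
theorem exists_aut_pow_resCard (F : Type) [Field F] [Algebra ℚ_[q] F] [Algebra F (PadicAlgCl q)]
    [IsScalarTower ℚ_[q] F (PadicAlgCl q)] [FiniteDimensional ℚ_[q] F] {m : ℕ} (hm : ¬ q ∣ m) :
    ∃ g : PadicAlgCl q ≃ₐ[F] PadicAlgCl q,
      ∀ ξ : PadicAlgCl q, ξ ^ m = 1 → g ξ = ξ ^ resCard q F := by
  have hm0 : m ≠ 0 := fun h0 => hm (h0 ▸ dvd_zero q)
  obtain ⟨f, -, hN⟩ := H28.exists_resCard_eq q F
  have hq : q.Prime := Fact.out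
  have hcop : Nat.Coprime (resCard q F) m := by
    rw [hN]
    exact Nat.Coprime.pow_left f ((Nat.Prime.coprime_iff_not_dvd hq).2 hm)
  have hn : 0 < Nat.totient m := Nat.totient_pos.2 (Nat.pos_of_ne_zero hm0)
  have hQ := H28.one_lt_resCard q F
  have hone : 1 ≤ resCard q F ^ Nat.totient m := Nat.one_le_pow _ _ (by omega)
  have hdvd : m ∣ resCard q F ^ Nat.totient m - 1 :=
    (Nat.modEq_iff_dvd' hone).1 (Nat.ModEq.pow_totient hcop).symm
  have hm' := H45.pow_sub_one_ne_zero q F hn
  obtain ⟨ζ, hprim⟩ := H45.exists_orderOf_eq q (m := resCard q F ^ Nat.totient m - 1) hm'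
  have hζ : orderOf ζ = resCard q F ^ Nat.totient m - 1 := hprim.eq_orderOf.symm
  have hE := H45.unramExt_eq_adjoin q F hprim hm'
  haveI hgal : IsGalois F F⟮ζ⟯ := by
    have := (H45.isGalois_unramExt q F (n := Nat.totient m) hn).2
    rwa [hE] at this
  obtain ⟨g0, hg0, -, -⟩ := H45.exists_frob_adjoin q F hn hζ
  haveI : Normal F (PadicAlgCl q) := Normal.tower_top_of_normal ℚ_[q] F (PadicAlgCl q)
  refine ⟨g0.liftNormal (PadicAlgCl q), fun ξ hξ => ?_⟩
  have hgζ : (g0.liftNormal (PadicAlgCl q)) ζ = ζ ^ resCard q F := by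
    have h1 := g0.liftNormal_commutes (PadicAlgCl q) (IntermediateField.AdjoinSimple.gen F ζ)
    rw [IntermediateField.AdjoinSimple.algebraMap_gen, hg0] at h1
    rw [h1]
    simp
  have hξ' : ξ ^ (resCard q F ^ Nat.totient m - 1) = 1 := by
    obtain ⟨d, hd⟩ := hdvd
    rw [hd, pow_mul, hξ, one_pow]
  haveI : NeZero (resCard q F ^ Nat.totient m - 1) := ⟨hm'⟩
  obtain ⟨i, -, rfl⟩ := hprim.eq_pow_of_pow_eq_one hξ'
  rw [map_pow, hgζ, ← pow_mul, ← pow_mul, mul_comm]

end Local

section Global

variable (q : ℕ) [Fact q.Prime]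
variable (k : Type) {K : Type} [Field k] [NumberField k] [Field K] [Algebra k K] [Normal k K]

/-- **Global Frobenius on roots of unity.**  For `K/k` normal, an embedding `τ : K → Ω` and
`q ∤ m` there is an element of the decomposition group of `τ` raising every `m`-th root of unity
of `K` to the power `#k_v`. -/
theorem exists_mem_decompGroup_pow_resCard (τ : K →+* PadicAlgCl q) {m : ℕ} (hm : ¬ q ∣ m) :
    ∃ s : K ≃ₐ[k] K, s ∈ decompGroup q k τ ∧
      ∀ ξ : K, ξ ^ m = 1 → s ξ = ξ ^ resCard q (locBase q k τ) := by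
  haveI : FiniteDimensional ℚ_[q] (locBase q k τ) :=
    finiteDimensional_locField q (τ.comp (algebraMap k K))
  obtain ⟨g, hg⟩ := exists_aut_pow_resCard q (locBase q k τ) hm
  have h : τ.comp (algebraMap k K)
      = ((g : PadicAlgCl q →+* PadicAlgCl q).comp τ).comp (algebraMap k K) := by
    refine RingHom.ext fun y => ?_
    have := g.commutes (⟨τ (algebraMap k K y), IntermediateField.subset_adjoin ℚ_[q]
      (Set.range (τ.comp (algebraMap k K))) ⟨y, rfl⟩⟩ : locBase q k τ)
    exact this.symm
  obtain ⟨s, hs⟩ := exists_algEquiv_comp_eq q τ _ h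
  have hs' : ∀ x : K, τ (s x) = g (τ x) := fun x => (RingHom.congr_fun hs x).symm
  refine ⟨s, ⟨g.restrictScalars ℚ_[q], RingHom.ext fun x => hs' x⟩, fun ξ hξ => ?_⟩
  apply τ.injective
  rw [hs', map_pow]
  exact hg (τ ξ) (by rw [← map_pow, hξ, map_one])

omit [NumberField k] in
/-- **Restriction to an abelian sublayer.**  If `Gal(E/k)` is commutative, the restriction to
`E` of an element of the decomposition group of `τ : K → Ω` lies in the decomposition group of
every embedding `τE : E → Ω` which agrees with `τ` on `k`. -/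
theorem restrictNormalHom_mem_decompGroup {E : Type} [Field E] [Algebra k E] [Algebra E K]
    [IsScalarTower k E K] [Normal k E] (hab : ∀ x y : E ≃ₐ[k] E, x * y = y * x)
    (τ : K →+* PadicAlgCl q) (τE : E →+* PadicAlgCl q)
    (h : τE.comp (algebraMap k E) = τ.comp (algebraMap k K)) {s : K ≃ₐ[k] K}
    (hs : s ∈ decompGroup q k τ) :
    AlgEquiv.restrictNormalHom E s ∈ decompGroup q k τE := by
  obtain ⟨g, hg⟩ := hs
  have hg' : ∀ x : K, τ (s x) = g (τ x) := fun x => RingHom.congr_fun hg x
  have h0 : τE.comp (algebraMap k E) = (τ.comp (algebraMap E K)).comp (algebraMap k E) := by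
    rw [h]
    refine RingHom.ext fun y => ?_
    show τ (algebraMap k K y) = τ (algebraMap E K (algebraMap k E y))
    rw [← IsScalarTower.algebraMap_apply]
  obtain ⟨ρ, hρ⟩ := exists_algEquiv_comp_eq q τE (τ.comp (algebraMap E K)) h0
  have hρ' : ∀ e : E, τ (algebraMap E K e) = τE (ρ e) := fun e => RingHom.congr_fun hρ e
  refine ⟨g, RingHom.ext fun x => ?_⟩
  show τE (AlgEquiv.restrictNormalHom E s x) = g (τE x)
  obtain ⟨e, rfl⟩ := ρ.surjective x
  have hcomm : AlgEquiv.restrictNormalHom E s (ρ e) = ρ (AlgEquiv.restrictNormalHom E s e) :=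
    DFunLike.congr_fun (hab (AlgEquiv.restrictNormalHom E s) ρ) e
  have h1 : algebraMap E K (AlgEquiv.restrictNormalHom E s e) = s (algebraMap E K e) :=
    AlgEquiv.restrictNormal_commutes s E e
  rw [hcomm, ← hρ', ← hρ', h1, hg']

end Global

attribute [local instance] factOfPrimes

section Place

variable (k K : Type) [Field k] [NumberField k] [Field K] [NumberField K] [Algebra k K]
  [Normal k K]

/-- The local degree at `v` is the order of the decomposition group of the chosen place. -/
theorem locDegAt_eq_card_decompGroup (v : FinPlace k) :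
    H29.locDegAt k K v = Nat.card (decompGroup (v.1 : ℕ) k (v.ext K)) :=
  (H20.card_decompGroup (v.1 : ℕ) k (v.ext K)).symm

/-- The local degree at `v` is divisible by the order of every element of the decomposition
group of the chosen place. -/
theorem dvd_locDegAt_of_mem_decompGroup (v : FinPlace k) {s : K ≃ₐ[k] K}
    (hs : s ∈ decompGroup (v.1 : ℕ) k (v.ext K)) : orderOf s ∣ H29.locDegAt k K v := by
  rw [locDegAt_eq_card_decompGroup]
  have h := orderOf_dvd_natCard (⟨s, hs⟩ : decompGroup (v.1 : ℕ) k (v.ext K))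
  rwa [Subgroup.orderOf_mk] at h

/-- The residue field of the completion at a finite place has at least two elements. -/
theorem two_le_resCard_finPlace (v : FinPlace k) : 2 ≤ resCard (v.1 : ℕ) v.field := by
  haveI : FiniteDimensional ℚ_[(v.1 : ℕ)] v.field := finiteDimensional_locField (v.1 : ℕ) v.emb
  have := H28.one_lt_resCard (v.1 : ℕ) v.field
  omega

/-- **Frobenius at a finite place of a normal layer.**  For a finite place `v` of `k` with
`v.1 ∤ m` there is `s ∈ Gal(K/k)` which raises the `m`-th roots of unity of `K` to the power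
`#k_v`, and whose restriction to any sublayer `E/k` with commutative Galois group has order
dividing the local degree of `E/k` at `v`. -/
theorem exists_frob_finPlace (v : FinPlace k) {m : ℕ} (hm : ¬ (v.1 : ℕ) ∣ m) :
    ∃ s : K ≃ₐ[k] K, (∀ ξ : K, ξ ^ m = 1 → s ξ = ξ ^ resCard (v.1 : ℕ) v.field) ∧
      ∀ (E : Type) [Field E] [NumberField E] [Algebra k E] [Algebra E K] [IsScalarTower k E K]
        [Normal k E], (∀ x y : E ≃ₐ[k] E, x * y = y * x) →
        orderOf (AlgEquiv.restrictNormalHom E s) ∣ H29.locDegAt k E v := by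
  obtain ⟨s, hs, hpow⟩ := exists_mem_decompGroup_pow_resCard (v.1 : ℕ) k (v.ext K) hm
  have hbase : locBase (v.1 : ℕ) k (v.ext K) = v.field :=
    congrArg (locField (v.1 : ℕ)) (v.ext_comp K)
  have hcard : resCard (v.1 : ℕ) (locBase (v.1 : ℕ) k (v.ext K)) = resCard (v.1 : ℕ) v.field :=
    congrArg (fun L : IntermediateField ℚ_[(v.1 : ℕ)] (PadicAlgCl (v.1 : ℕ)) =>
      resCard (v.1 : ℕ) L) hbase
  refine ⟨s, fun ξ hξ => by rw [hpow ξ hξ, hcard], ?_⟩
  intro E _ _ _ _ _ _ hab
  refine dvd_locDegAt_of_mem_decompGroup k E v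
    (restrictNormalHom_mem_decompGroup (v.1 : ℕ) k hab (v.ext K) (v.ext E) ?_ hs)
  rw [v.ext_comp E, v.ext_comp K]

end Place

end Fermat.Agent.S55.H51
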