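/-
S55 (Poitou–Tate), package C8, leaf (CYCLO-EXISTS) of `H29/C8Rec.lean` — helper51.

`cycloLayerExists p : H29.CycloLayerExistsStatement p` : for a finite set `T` of finite places of
a number field `k` and `c : ℕ` there are a squarefree `m`, prime to `p` and to the residue
characteristics of `T`, and a cyclic layer `E/k` of `p`-power degree inside `F = k(ζ_m)` whose
local degrees at the places of `T` are divisible by `p ^ c`.

Proof: helper15's `H15.exists_modulus_cyclic_layer` (N1 + N2) applied to `t v = #k_v`, and the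
Frobenius elements of `H51.exists_frob_finPlace`.
-/
import Fermat.Agent.S55.H51.FrobCyclo
import Fermat.Agent.S55.H15.CycloSplit
import Fermat.Agent.S55.H29.C8Rec

set_option autoImplicit false
set_option linter.style.haveILetI false
set_option linter.unusedSectionVars false

open scoped IntermediateField

noncomputable section

namespace Fermat.Agent.S55.H51

open Fermat.Agent.S55.H88 Fermat.Agent.S55.H66

attribute [local instance] factOfPrimes

/-- **Leaf (CYCLO-EXISTS).** -/
theorem cycloLayerExists (p : ℕ) : H29.CycloLayerExistsStatement p := by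
  intro hp hp2 k _ _ T c
  classical
  -- enumerate `T`
  let e : Fin T.card ≃ T := T.equivFin.symm
  let w : Fin T.card → FinPlace k := fun i => (e i : FinPlace k)
  have hw : ∀ v ∈ T, ∃ i, w i = v := fun v hv => ⟨e.symm ⟨v, hv⟩, by simp [w]⟩
  let t : Fin T.card → ℕ := fun i => resCard ((w i).1 : ℕ) (w i).field
  have ht : ∀ i, 2 ≤ t i := fun i => two_le_resCard_finPlace k (w i)
  let B : ℕ := ∑ i, ((w i).1 : ℕ)
  obtain ⟨m, hsq, hmp, hmB, -, hm⟩ := H15.exists_modulus_cyclic_layer p hp hp2 T.card t
    (fun _ => 1) ht (fun _ => one_ne_zero) B c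
  have hm0 : m ≠ 0 := hsq.ne_zero
  haveI : NeZero m := ⟨hm0⟩
  have hq : ∀ i, ¬ ((w i).1 : ℕ) ∣ m := fun i hdiv => by
    have h1 : B < ((w i).1 : ℕ) := hmB _ (w i).1.2 hdiv
    have h2 : ((w i).1 : ℕ) ≤ B :=
      Finset.single_le_sum (f := fun j => ((w j).1 : ℕ)) (fun _ _ => Nat.zero_le _)
        (Finset.mem_univ i)
    omega
  haveI : IsGalois k (CyclotomicField m k) := IsCyclotomicExtension.isGalois {m} k _
  choose s hs1 hs2 using fun i => exists_frob_finPlace k (CyclotomicField m k) (w i) (hq i)
  obtain ⟨E, hEgal, n, hcyc, hdeg, hord⟩ := hm k (CyclotomicField m k) s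
    (fun i ξ hξ => by rw [hs1 i ξ hξ, pow_one])
  have hab : ∀ x y : E ≃ₐ[k] E, x * y = y * x := fun x y => by
    haveI := hcyc
    letI : CommGroup (E ≃ₐ[k] E) := IsCyclic.commGroup
    exact mul_comm x y
  refine ⟨m, E, CyclotomicField m k, inferInstance, inferInstance, inferInstance, inferInstance,
    inferInstance, inferInstance, inferInstance, inferInstance, hEgal, hcyc, inferInstance,
    hsq, ?_, ⟨n, hdeg⟩, ?_, ?_⟩
  · exact fun h => hp.one_lt.ne' (Nat.eq_one_of_dvd_coprimes hmp.symm (dvd_refl p) h)
  · intro v hv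
    obtain ⟨i, rfl⟩ := hw v hv
    exact hq i
  · intro v hv
    obtain ⟨i, rfl⟩ := hw v hv
    exact (hord i).trans (hs2 i E hab)

end Fermat.Agent.S55.H51
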