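/-
S55 (Poitou–Tate), package C8, part 3 (B4), assembly (CLASS-PBOUND) of `H29/C8Cls.lean` —
helper51 (task 580, backup of helper37).

`classPBound_of` : `#H²(Gal(K/k), C_K) ∣ [K : k]` for the `p`-group layers over fields containing
`μ_p` (`H29.ClassPBoundStatement p`), from CLASS-INFRES, CLASS-H1 and CLASS-CYC.

Proof: induction on `n`, `[K : k] = p ^ n`.
* `n = 0` : `Gal(K/k)` is trivial, so `H² = 0`.
* `n + 1` : `z` a central element of order `p` of `Gal(K/k)`, `E` the fixed field of `⟨z⟩`
  (Galois over `k` of degree `p ^ n`; `K/E` cyclic of degree `p`).  By CLASS-H1 for `K/E` and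
  CLASS-INFRES for `k ⊆ E ⊆ K` the sequence
  `H²(Gal(E/k), C_E) → H²(Gal(K/k), C_K) → H²(Gal(K/E), C_K)` is exact; the left term has order
  dividing `p ^ n` (induction) and the right term has order `p` (CLASS-CYC).
-/
import Fermat.Agent.S55.H29.C8Cls
import Fermat.Agent.S55.H51.PGroupHasse
import Fermat.Agent.S55.H45.PrimeLayers

set_option autoImplicit false
set_option linter.style.haveILetI false

open CategoryTheory groupCohomology Rep

noncomputable section

namespace Fermat.Agent.S55.H51

open Fermat.Agent.S55.H88 Fermat.Agent.S55.H66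

/-- **Assembly (CLASS-PBOUND).** -/
theorem classPBound_of (p : ℕ) (hIR : H29.ClassInfResStatement) (hH1 : H29.ClassH1Statement p)
    (hCyc : H29.ClassCycStatement p) : H29.ClassPBoundStatement p := by
  intro hp hp2 n
  haveI : Fact p.Prime := ⟨hp⟩
  induction n with
  | zero =>
    intro k K _ _ _ _ _ _ _ hn
    haveI : Subsingleton (K ≃ₐ[k] K) := by
      rw [← Finite.card_le_one_iff_subsingleton, IsGalois.card_aut_eq_finrank, hn, pow_zero]
    have h : Limits.IsZero (groupCohomology (ideleClassRep k K) (1 + 1)) :=
      isZero_groupCohomology_succ_of_subsingleton (ideleClassRep k K) 1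
    haveI hs : Subsingleton (groupCohomology (ideleClassRep k K) 2) :=
      ModuleCat.subsingleton_of_isZero h
    rw [pow_zero, Nat.dvd_one]
    exact Nat.card_eq_one_iff_unique.mpr ⟨hs, ⟨0⟩⟩
  | succ n ih =>
    intro k K _ _ _ _ _ _ hζ hn
    obtain ⟨ζ, hζ⟩ := hζ
    have hcard : Nat.card (K ≃ₐ[k] K) = p ^ (n + 1) := by
      rw [IsGalois.card_aut_eq_finrank, hn]
    obtain ⟨z, hzc, hzo⟩ := exists_central_orderOf_eq_prime p hcard
    have hle : Subgroup.zpowers z ≤ Subgroup.center (K ≃ₐ[k] K) :=
      (Subgroup.zpowers_le).mpr hzc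
    haveI hnormal : (Subgroup.zpowers z).Normal :=
      ⟨fun h hh g => by
        have hc := Subgroup.mem_center_iff.mp (hle hh) g
        rw [hc, mul_inv_cancel_right]
        exact hh⟩
    have hEK : Module.finrank (IntermediateField.fixedField (Subgroup.zpowers z)) K = p := by
      rw [IntermediateField.finrank_fixedField_eq_card, Nat.card_zpowers, hzo]
    have hkE : Module.finrank k (IntermediateField.fixedField (Subgroup.zpowers z)) = p ^ n := by
      have h := Module.finrank_mul_finrank k (IntermediateField.fixedField (Subgroup.zpowers z)) K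
      rw [hEK, hn, pow_succ] at h
      exact Nat.eq_of_mul_eq_mul_right hp.pos h
    have hζE : IsPrimitiveRoot
        (algebraMap k (IntermediateField.fixedField (Subgroup.zpowers z)) ζ) p :=
      hζ.map_of_injective (algebraMap k _).injective
    haveI hcyc : IsCyclic (K ≃ₐ[IntermediateField.fixedField (Subgroup.zpowers z)] K) :=
      isCyclic_of_prime_card (p := p) (by rw [IsGalois.card_aut_eq_finrank, hEK])
    have h1 : Limits.IsZero (groupCohomology
        (ideleClassRep (IntermediateField.fixedField (Subgroup.zpowers z)) K) 1) :=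
      hH1 hp hp2 _ K ⟨_, hζE⟩ ⟨1, by rw [hEK, pow_one]⟩
    obtain ⟨-, hex⟩ := hIR k (IntermediateField.fixedField (Subgroup.zpowers z)) K h1
    have hc : Nat.card (groupCohomology
        (ideleClassRep (IntermediateField.fixedField (Subgroup.zpowers z)) K) 2) = p ^ 1 :=
      (hCyc hp hp2 _ K ⟨_, hζE⟩ 1 (by rw [hEK, pow_one])).2
    have hE : Nat.card (groupCohomology
        (ideleClassRep k (IntermediateField.fixedField (Subgroup.zpowers z))) 2) ∣ p ^ n :=
      ih k _ ⟨ζ, hζ⟩ hkE
    have key := H45.natCard_dvd_mul_of_exact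
      (f := (groupCohomology.map (AlgEquiv.restrictNormalHom (F := k) (K₁ := K)
        (IntermediateField.fixedField (Subgroup.zpowers z)))
        (H29.classInfl k (IntermediateField.fixedField (Subgroup.zpowers z)) K)
        2).hom.toAddMonoidHom)
      (g := (groupCohomology.map
        (H29.subGal k (IntermediateField.fixedField (Subgroup.zpowers z)) K)
        (H29.classSub k (IntermediateField.fixedField (Subgroup.zpowers z)) K)
        2).hom.toAddMonoidHom)
      hex (pow_ne_zero n hp.ne_zero) (pow_ne_zero 1 hp.ne_zero) hE hc.dvd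
    rwa [← pow_add] at key

end Fermat.Agent.S55.H51
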