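/-
S55 (Poitou–Tate), package C8, part 3 (B4), leaf (UNR-H3) of `H29/C8Cls.lean` — helper51
(task 570).

`unramifiedUnitsH3Statement : H29.UnramifiedUnitsH3Statement` : at a prime `q` unramified in the
Galois layer `K / k` of number fields, the semi-local units `∏_{w ∣ q} 𝒪_wˣ` have trivial `H³`.

Proof (D2 in degree 3): Shapiro detection in all degrees (`H71.isZero_of_detect`, with
helper31's `semiLocalUnitsRep_sep` / `semiLocalUnitsRep_glue`) reduces to the decomposition
groups acting on the local units; an unramified decomposition group is cyclic, generated by a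
Frobenius (`H63.leafFrob`), `H¹ = 0` (`H31.locUnitGroup_isZero`), and `H¹ = 0 ⟹ H³ = 0` for a
finite cyclic group (`H73.isZero_H3_of_isZero_H1_of_isCyclic`).
-/
import Fermat.Agent.S55.H31.UnramUnits
import Fermat.Agent.S55.H71.ShapiroAll
import Fermat.Agent.S55.H73.Twin3
import Fermat.Agent.S55.H29.C8Cls

set_option autoImplicit false
set_option linter.style.haveILetI false
set_option linter.unusedSectionVars false
set_option linter.unusedVariables false

open CategoryTheory

noncomputable section

namespace Fermat.Agent.S55.H51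

open Fermat.Agent.S55.H88 Fermat.Agent.S55.H66

section Local

variable (q : ℕ) [Fact q.Prime]
variable (k : Type) {K : Type} [Field k] [Field K] [Algebra k K] (τ : K →+* PadicAlgCl q)
variable [FiniteDimensional k K] [Normal k K] [FiniteDimensional ℚ_[q] (locBase q k τ)]

/-- The decomposition group of an unramified completion is cyclic (generated by a Frobenius). -/
theorem isCyclic_decompGroup_of_unram
    (hunr : ∀ x : PadicAlgCl q, x ∈ locField q τ → ∃ y ∈ locBase q k τ, ‖x‖ = ‖y‖) :
    IsCyclic (decompGroup q k τ) := by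
  have hU : IsUnram q (locBase q k τ) (locExt q k τ) := fun x => by
    obtain ⟨y, hy, hxy⟩ := hunr (x : PadicAlgCl q) x.2
    exact ⟨⟨y, hy⟩, hxy⟩
  obtain ⟨φ, -, -, hφ⟩ := H63.leafFrob q (locBase q k τ) (locExt q k τ) hU
  obtain ⟨d₀, hd₀⟩ := H31.decompToGal_surjective q k τ φ
  refine ⟨⟨d₀, fun d => ?_⟩⟩
  obtain ⟨m, hm⟩ := Subgroup.mem_zpowers_iff.1 (hφ (H31.decompToGal q k τ d))
  refine Subgroup.mem_zpowers_iff.2 ⟨m, H31.decompToGal_injective q k τ ?_⟩
  rw [map_zpow, hd₀, hm]

/-- **Local vanishing in degree 3**: for an unramified completion `K_w / k_v` the local units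
have trivial `H³` as a module over the decomposition group. -/
theorem locUnitGroup_isZero_three
    (hunr : ∀ x : PadicAlgCl q, x ∈ locField q τ → ∃ y ∈ locBase q k τ, ‖x‖ = ‖y‖) :
    Limits.IsZero (groupCohomology (H31.locUnitGroupRep q k τ) 3) := by
  haveI : IsCyclic (decompGroup q k τ) := isCyclic_decompGroup_of_unram q k τ hunr
  exact H73.isZero_H3_of_isZero_H1_of_isCyclic (H31.locUnitGroupRep q k τ)
    (H31.locUnitGroup_isZero q k τ hunr 1 (Or.inl rfl))

end Local

attribute [local instance] factOfPrimes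

/-- **Leaf (UNR-H3).** -/
theorem unramifiedUnitsH3Statement : H29.UnramifiedUnitsH3Statement := by
  intro k K _ _ _ _ _ _ q hunr
  haveI : Finite (H31.DblOrbit (q : ℕ) k K) := H31.finite_dblOrbit (q : ℕ) k K
  refine H71.isZero_of_detect (semiLocalUnitsRep k K (q : ℕ))
    (fun i : H31.DblOrbit (q : ℕ) k K => decompGroup (q : ℕ) k i.emb)
    (fun i => H31.locUnitGroupRep (q : ℕ) k i.emb)
    (fun i => H31.semiLocalUnitsToLoc (q : ℕ) k i.emb)
    (H31.semiLocalUnitsRep_sep (q : ℕ) k K) (H31.semiLocalUnitsRep_glue (q : ℕ) k K) 3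
    (fun i => ?_)
  haveI : FiniteDimensional ℚ_[(q : ℕ)] (locBase (q : ℕ) k i.emb) :=
    finiteDimensional_locField (q : ℕ) (i.emb.comp (algebraMap k K))
  exact locUnitGroup_isZero_three (q : ℕ) k i.emb (fun x hx => hunr i.emb x hx)

end Fermat.Agent.S55.H51
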